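/-
MAZUR / [MZ-A] / [A-THETA] (T1) (helper25): the theta product
`θ(z) = (1 - e(z)) ∏ (1 - q^(n+1) e(z)) (1 - q^(n+1) e(-z))`, `e(z) = exp(2πiz)`, for `‖q‖ < 1`:
entire, `θ(z+1) = θ(z)`, `θ(z+τ) = -e(-z) θ(z)` when `q = e(τ)`, zeros exactly on `ℤ + ℤτ`,
`θ'(0) = -2πi P²`, `P = ∏ (1 - q^(n+1))`.

Mathlib only.  Prefix `mza_th_`, namespace `Fermat.Agent.MZ`.
-/
import Mathlib

set_option autoImplicit false

open Complex Filter Topology
open scoped Real

namespace Fermat.Agent.MZ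

/-! ### the one-variable product `A_q(w) = ∏ (1 - q^(n+1) w)` -/

/-- `A_q(w) = ∏' n, (1 - q^(n+1) w)` -/
noncomputable def mza_th_A (q w : ℂ) : ℂ := ∏' n : ℕ, (1 - q ^ (n + 1) * w)

theorem mza_th_summable {q : ℂ} (hq : ‖q‖ < 1) (w : ℂ) :
    Summable fun n : ℕ => ‖-(q ^ (n + 1) * w)‖ := by
  have h1 : Summable fun n : ℕ => ‖q‖ ^ (n + 1) * ‖w‖ :=
    ((summable_nat_add_iff 1).mpr (summable_geometric_of_lt_one (norm_nonneg _) hq)).mul_right _
  refine h1.congr fun n => ?_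
  rw [norm_neg, norm_mul, norm_pow]

theorem mza_th_multipliable {q : ℂ} (hq : ‖q‖ < 1) (w : ℂ) :
    Multipliable fun n : ℕ => 1 - q ^ (n + 1) * w := by
  have h := multipliable_one_add_of_summable (f := fun n : ℕ => -(q ^ (n + 1) * w))
    (mza_th_summable hq w)
  simpa [sub_eq_add_neg] using h

/-- functional equation `A(w) = (1 - q w) A(q w)` -/
theorem mza_th_A_mul {q : ℂ} (hq : ‖q‖ < 1) (w : ℂ) :
    mza_th_A q w = (1 - q * w) * mza_th_A q (q * w) := by
  have e : ∀ n : ℕ, 1 - q ^ (n + 1 + 1) * w = 1 - q ^ (n + 1) * (q * w) := by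
    intro n
    ring
  have hm : Multipliable fun n : ℕ => 1 - q ^ (n + 1 + 1) * w := by
    simp only [e]
    exact mza_th_multipliable hq (q * w)
  have h := tprod_eq_zero_mul' (f := fun n : ℕ => 1 - q ^ (n + 1) * w) hm
  simp only [e] at h
  rw [mza_th_A, h, mza_th_A]
  ring

theorem mza_th_A_ne_zero {q : ℂ} (hq : ‖q‖ < 1) {w : ℂ} (hw : ∀ n : ℕ, q ^ (n + 1) * w ≠ 1) :
    mza_th_A q w ≠ 0 := by
  have h := tprod_one_add_ne_zero_of_summable (f := fun n : ℕ => -(q ^ (n + 1) * w))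
    (fun n => by
      intro h0
      apply hw n
      have : (1 : ℂ) - q ^ (n + 1) * w = 0 := by simpa [sub_eq_add_neg] using h0
      exact (sub_eq_zero.mp this).symm)
    (mza_th_summable hq w)
  simpa [mza_th_A, sub_eq_add_neg] using h

theorem mza_th_A_eq_zero {q w : ℂ} {n : ℕ} (hw : q ^ (n + 1) * w = 1) : mza_th_A q w = 0 := by
  rw [mza_th_A]
  exact tprod_of_exists_eq_zero ⟨n, by rw [hw, sub_self]⟩

theorem mza_th_A_eq_zero_iff {q : ℂ} (hq : ‖q‖ < 1) {w : ℂ} :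
    mza_th_A q w = 0 ↔ ∃ n : ℕ, q ^ (n + 1) * w = 1 := by
  constructor
  · intro h
    by_contra hne
    push Not at hne
    exact mza_th_A_ne_zero hq hne h
  · rintro ⟨n, hn⟩
    exact mza_th_A_eq_zero hn

/-- `A_q` is entire -/
theorem mza_th_A_differentiable {q : ℂ} (hq : ‖q‖ < 1) : Differentiable ℂ (mza_th_A q) := by
  have hloc : HasProdLocallyUniformlyOn (fun (n : ℕ) (w : ℂ) => 1 + -(q ^ (n + 1) * w))
      (fun w => ∏' n : ℕ, (1 + -(q ^ (n + 1) * w))) Set.univ := by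
    apply hasProdLocallyUniformlyOn_of_forall_compact isOpen_univ
    intro K _ hcK
    obtain ⟨R, hR⟩ := hcK.isBounded.exists_norm_le
    have hsum : Summable fun n : ℕ => ‖q‖ ^ (n + 1) * R :=
      ((summable_nat_add_iff 1).mpr (summable_geometric_of_lt_one (norm_nonneg _) hq)).mul_right _
    refine hsum.hasProdUniformlyOn_nat_one_add hcK (.of_forall fun n x hx => ?_)
      (fun n => by fun_prop)
    rw [norm_neg, norm_mul, norm_pow]
    exact mul_le_mul_of_nonneg_left (hR x hx) (pow_nonneg (norm_nonneg _) _)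
  have hd : DifferentiableOn ℂ (fun w => ∏' n : ℕ, (1 + -(q ^ (n + 1) * w))) Set.univ :=
    hloc.differentiableOn (.of_forall fun s => by
      simpa [Finset.prod_fn] using
        DifferentiableOn.finsetProd (fun _ _ => by fun_prop)) isOpen_univ
  have he : mza_th_A q = fun w => ∏' n : ℕ, (1 + -(q ^ (n + 1) * w)) := by
    funext w
    simp [mza_th_A, sub_eq_add_neg]
  rw [he]
  exact differentiableOn_univ.mp hd

/-! ### the exponential `e(z) = exp(2πiz)` -/

/-- `e(z) = exp(2πiz)` -/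
noncomputable def mza_th_e (z : ℂ) : ℂ := cexp (2 * π * I * z)

theorem mza_th_e_add (z w : ℂ) : mza_th_e (z + w) = mza_th_e z * mza_th_e w := by
  rw [mza_th_e, mza_th_e, mza_th_e, ← Complex.exp_add]
  congr 1
  ring

theorem mza_th_e_zero : mza_th_e 0 = 1 := by simp [mza_th_e]

theorem mza_th_e_ne_zero (z : ℂ) : mza_th_e z ≠ 0 := Complex.exp_ne_zero _

theorem mza_th_e_neg (z : ℂ) : mza_th_e (-z) = (mza_th_e z)⁻¹ := by
  rw [mza_th_e, mza_th_e, ← Complex.exp_neg]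
  congr 1
  ring

theorem mza_th_e_mul_neg (z : ℂ) : mza_th_e z * mza_th_e (-z) = 1 := by
  rw [mza_th_e_neg, mul_inv_cancel₀ (mza_th_e_ne_zero z)]

theorem mza_th_e_eq_one_iff {z : ℂ} : mza_th_e z = 1 ↔ ∃ n : ℤ, z = n := by
  rw [mza_th_e, Complex.exp_eq_one_iff]
  have h2 : (2 * π * I : ℂ) ≠ 0 := Complex.two_pi_I_ne_zero
  constructor
  · rintro ⟨n, hn⟩
    refine ⟨n, ?_⟩
    have : (2 * π * I : ℂ) * z = (2 * π * I) * n := by rw [hn]; ring
    exact mul_left_cancel₀ h2 this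
  · rintro ⟨n, rfl⟩
    exact ⟨n, by ring⟩

theorem mza_th_e_intCast (n : ℤ) : mza_th_e n = 1 := mza_th_e_eq_one_iff.mpr ⟨n, rfl⟩

theorem mza_th_e_one : mza_th_e 1 = 1 := by
  have := mza_th_e_intCast 1
  simpa using this

theorem mza_th_e_natCast_mul (n : ℕ) (z : ℂ) : mza_th_e (n * z) = mza_th_e z ^ n := by
  rw [mza_th_e, mza_th_e, ← Complex.exp_nat_mul]
  congr 1
  ring

theorem mza_th_e_differentiable : Differentiable ℂ mza_th_e := by
  unfold mza_th_e
  fun_prop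

theorem mza_th_e_hasDerivAt (z : ℂ) : HasDerivAt mza_th_e (2 * π * I * mza_th_e z) z := by
  have h1 : HasDerivAt (fun z : ℂ => 2 * π * I * z) (2 * π * I) z := by
    simpa using (hasDerivAt_id z).const_mul (2 * π * I : ℂ)
  have h2 := h1.cexp
  have h3 : mza_th_e = fun z : ℂ => cexp (2 * π * I * z) := rfl
  rw [h3]
  have h4 : 2 * π * I * (fun z : ℂ => cexp (2 * π * I * z)) z
      = cexp (2 * π * I * z) * (2 * π * I) := by
    show 2 * π * I * cexp (2 * π * I * z) = _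
    ring
  rw [h4]
  exact h2

theorem mza_th_norm_e_lt_one {τ : ℂ} (hτ : 0 < τ.im) : ‖mza_th_e τ‖ < 1 := by
  rw [mza_th_e, Complex.norm_exp]
  have : (2 * π * I * τ).re = -(2 * π * τ.im) := by
    simp [Complex.mul_re, Complex.mul_im]
  rw [this, Real.exp_lt_one_iff]
  have := Real.pi_pos
  nlinarith

/-! ### the theta product -/

/-- `θ_q(z) = (1 - e(z)) A_q(e(z)) A_q(e(-z))` -/
noncomputable def mza_th_theta (q z : ℂ) : ℂ :=
  (1 - mza_th_e z) * mza_th_A q (mza_th_e z) * mza_th_A q (mza_th_e (-z))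

theorem mza_th_theta_differentiable {q : ℂ} (hq : ‖q‖ < 1) :
    Differentiable ℂ (mza_th_theta q) := by
  have hA := mza_th_A_differentiable hq
  have he := mza_th_e_differentiable
  unfold mza_th_theta
  refine ((differentiable_const _).sub he).mul (hA.comp he) |>.mul ?_
  exact hA.comp (he.comp differentiable_neg)

theorem mza_th_theta_add_one (q z : ℂ) : mza_th_theta q (z + 1) = mza_th_theta q z := by
  have h1 : mza_th_e (z + 1) = mza_th_e z := by rw [mza_th_e_add, mza_th_e_one, mul_one]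
  have h2 : mza_th_e (-(z + 1)) = mza_th_e (-z) := by
    rw [neg_add, mza_th_e_add, mza_th_e_neg 1, mza_th_e_one, inv_one, mul_one]
  rw [mza_th_theta, mza_th_theta, h1, h2]

theorem mza_th_theta_neg (q z : ℂ) :
    mza_th_theta q (-z) = -mza_th_e (-z) * mza_th_theta q z := by
  have h := mza_th_e_mul_neg z
  rw [mza_th_theta, mza_th_theta, neg_neg]
  linear_combination (-(mza_th_A q (mza_th_e z) * mza_th_A q (mza_th_e (-z)))) * h

theorem mza_th_theta_add_tau {τ : ℂ} (hτ : 0 < τ.im) (z : ℂ) :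
    mza_th_theta (mza_th_e τ) (z + τ) = -mza_th_e (-z) * mza_th_theta (mza_th_e τ) z := by
  set q := mza_th_e τ with hqdef
  have hq : ‖q‖ < 1 := mza_th_norm_e_lt_one hτ
  have hq0 : q ≠ 0 := mza_th_e_ne_zero τ
  have h1 : mza_th_e (z + τ) = q * mza_th_e z := by rw [mza_th_e_add, mul_comm]
  have h2 : mza_th_e (-(z + τ)) = q⁻¹ * mza_th_e (-z) := by
    rw [neg_add, mza_th_e_add, mza_th_e_neg τ, mul_comm]
  have h3 := mza_th_A_mul hq (mza_th_e z)
  have h4 := mza_th_A_mul hq (q⁻¹ * mza_th_e (-z))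
  rw [← mul_assoc, mul_inv_cancel₀ hq0, one_mul] at h4
  have h := mza_th_e_mul_neg z
  rw [mza_th_theta, mza_th_theta, h1, h2, h4, h3]
  linear_combination (-(mza_th_A q (q * mza_th_e z) * mza_th_A q (mza_th_e (-z)) *
    (1 - q * mza_th_e z))) * h

theorem mza_th_pow_mul_e (τ z : ℂ) (n : ℕ) :
    mza_th_e τ ^ (n + 1) * mza_th_e z = mza_th_e (((n + 1 : ℕ) : ℂ) * τ + z) := by
  rw [mza_th_e_add, mza_th_e_natCast_mul]

/-- the zeros of `θ` are the lattice points -/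
theorem mza_th_theta_eq_zero_iff {τ : ℂ} (hτ : 0 < τ.im) {z : ℂ} :
    mza_th_theta (mza_th_e τ) z = 0 ↔ ∃ m n : ℤ, z = m + n * τ := by
  have hq : ‖mza_th_e τ‖ < 1 := mza_th_norm_e_lt_one hτ
  rw [mza_th_theta, mul_eq_zero, mul_eq_zero, mza_th_A_eq_zero_iff hq, mza_th_A_eq_zero_iff hq,
    sub_eq_zero]
  constructor
  · rintro ((h | ⟨n, h⟩) | ⟨n, h⟩)
    · obtain ⟨m, hm⟩ := mza_th_e_eq_one_iff.mp h.symm
      exact ⟨m, 0, by rw [hm]; simp⟩
    · rw [mza_th_pow_mul_e, mza_th_e_eq_one_iff] at h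
      obtain ⟨m, hm⟩ := h
      refine ⟨m, -((n + 1 : ℕ) : ℤ), ?_⟩
      push_cast at hm ⊢
      linear_combination hm
    · rw [mza_th_pow_mul_e, mza_th_e_eq_one_iff] at h
      obtain ⟨m, hm⟩ := h
      refine ⟨-m, ((n + 1 : ℕ) : ℤ), ?_⟩
      push_cast at hm ⊢
      linear_combination -hm
  · rintro ⟨m, n, rfl⟩
    rcases lt_trichotomy n 0 with hn | hn | hn
    · left; right
      obtain ⟨k, hk⟩ : ∃ k : ℕ, n = -((k + 1 : ℕ) : ℤ) := by
        refine ⟨(-n - 1).toNat, ?_⟩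
        have : ((-n - 1).toNat : ℤ) = -n - 1 := Int.toNat_of_nonneg (by omega)
        push_cast
        omega
      refine ⟨k, ?_⟩
      rw [mza_th_pow_mul_e, mza_th_e_eq_one_iff]
      refine ⟨m, ?_⟩
      rw [hk]
      push_cast
      ring
    · left; left
      subst hn
      symm
      rw [mza_th_e_eq_one_iff]
      exact ⟨m, by simp⟩
    · right
      obtain ⟨k, hk⟩ : ∃ k : ℕ, n = ((k + 1 : ℕ) : ℤ) := by
        refine ⟨(n - 1).toNat, ?_⟩
        have : ((n - 1).toNat : ℤ) = n - 1 := Int.toNat_of_nonneg (by omega)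
        push_cast
        omega
      refine ⟨k, ?_⟩
      rw [mza_th_pow_mul_e, mza_th_e_eq_one_iff]
      refine ⟨-m, ?_⟩
      rw [hk]
      push_cast
      ring

/-- `P = ∏ (1 - q^(n+1)) = A_q(1)` -/
theorem mza_th_A_one (q : ℂ) : mza_th_A q 1 = ∏' n : ℕ, (1 - q ^ (n + 1)) := by
  simp [mza_th_A]

theorem mza_th_A_one_ne_zero {q : ℂ} (hq : ‖q‖ < 1) : mza_th_A q 1 ≠ 0 := by
  apply mza_th_A_ne_zero hq
  intro n h
  rw [mul_one] at h
  have h1 : ‖q ^ (n + 1)‖ < 1 := by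
    rw [norm_pow]
    exact pow_lt_one₀ (norm_nonneg _) hq (Nat.succ_ne_zero n)
  rw [h, norm_one] at h1
  exact lt_irrefl _ h1

theorem mza_th_theta_zero (q : ℂ) : mza_th_theta q 0 = 0 := by
  simp [mza_th_theta, mza_th_e_zero]

/-- `θ'(0) = -2πi P²` -/
theorem mza_th_theta_hasDerivAt_zero {q : ℂ} (hq : ‖q‖ < 1) :
    HasDerivAt (mza_th_theta q) (-(2 * π * I) * mza_th_A q 1 ^ 2) 0 := by
  have hA := mza_th_A_differentiable hq
  have he := mza_th_e_differentiable
  have hT : DifferentiableAt ℂ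
      (fun z => mza_th_A q (mza_th_e z) * mza_th_A q (mza_th_e (-z))) 0 :=
    ((hA.comp he).mul (hA.comp (he.comp differentiable_neg))).differentiableAt
  have h1 : HasDerivAt (fun z => 1 - mza_th_e z) (-(2 * π * I * mza_th_e 0)) 0 :=
    (mza_th_e_hasDerivAt 0).const_sub 1
  have h2 := h1.mul hT.hasDerivAt
  have h3 : mza_th_theta q = (fun z => 1 - mza_th_e z) *
      fun z => mza_th_A q (mza_th_e z) * mza_th_A q (mza_th_e (-z)) := by
    funext z
    rw [Pi.mul_apply, mza_th_theta, mul_assoc]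
  rw [h3]
  refine h2.congr_deriv ?_
  simp only [neg_zero, mza_th_e_zero, sub_self, zero_mul, add_zero, mul_one]
  ring

end Fermat.Agent.MZ
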