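/-
MAZUR / [MZ-A] / [A-THETA] (T3), bridge (helper11): `mza_tp_main` in the vocabulary of
`MZ/A/Theta/Basic.lean` (helper25): `mza_th_e`, `mza_th_A`, `mza_th_theta`.  Prefix `mza_tp_`.

* `mza_tp_Th_eq_theta` : `mza_tp_Th q (e z) = mza_th_theta q z`;
* `mza_tp_main_theta`  : (T2) for `mza_th_theta (e τ)` ⟹ the product formula
  `(∏_{k=1}^{p-1} ℘'[L_τ](k/p))^4 * p^12 * Δ(pτ) = (2π)^(12(p-1)) * Δ(τ)^p`.
-/
import Fermat.Agent.MZ.A.Theta.Basic
import Fermat.Agent.MZ.A.Theta.Prod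

set_option autoImplicit false

open Complex Finset
open UpperHalfPlane hiding I
open scoped Real

namespace Fermat.Agent.MZ

local notation "𝕢" => Function.Periodic.qParam

theorem mza_tp_Th_eq_theta {q : ℂ} (hq : ‖q‖ < 1) (z : ℂ) :
    mza_tp_Th q (mza_th_e z) = mza_th_theta q z := by
  unfold mza_tp_Th mza_th_theta mza_th_A
  rw [(mza_th_multipliable hq _).tprod_mul (mza_th_multipliable hq _), mza_th_e_neg, mul_assoc]

theorem mza_tp_qParam_eq (z : ℂ) : 𝕢 1 z = mza_th_e z := by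
  simp [Function.Periodic.qParam, mza_th_e]

/-- **(T3)** in the vocabulary of `Theta/Basic.lean`. -/
theorem mza_tp_main_theta (τ : ℍ) (p : ℕ) [NeZero p] (hp : p.Prime) (hp2 : p ≠ 2)
    (hT2 : ∀ z : ℂ, (mza_Ltau τ).derivWeierstrassP z * mza_th_theta (mza_th_e τ) z ^ 4 =
      (2 * π * I) ^ 3 * mza_th_A (mza_th_e τ) 1 ^ 6 * mza_th_e z *
        mza_th_theta (mza_th_e τ) (2 * z)) :
    (∏ k ∈ Ico 1 p, (mza_Ltau τ).derivWeierstrassP ((k : ℂ) / p)) ^ 4 * (p : ℂ) ^ 12 *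
        ModularForm.discriminant (mza_mulH p τ) =
      (2 * π) ^ (12 * (p - 1)) * ModularForm.discriminant τ ^ p := by
  have hq : ‖mza_th_e (τ : ℂ)‖ < 1 := mza_th_norm_e_lt_one τ.im_pos
  refine mza_tp_main_Th τ p hp hp2 fun z => ?_
  rw [mza_tp_qParam_eq]
  have h := hT2 z
  rw [← mza_tp_Th_eq_theta hq, ← mza_tp_Th_eq_theta hq, mza_th_A_one] at h
  exact h

end Fermat.Agent.MZ
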