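/-
MAZUR / [MZ-A] / [A-THETA] (helper25): Liouville's theorem for lattice-periodic functions with
removable singularities.

`mza_th_liouville`: a function `E : ℂ → ℂ`, periodic under a lattice, which near every point `z₀`
agrees on a punctured neighbourhood with a function analytic at `z₀`, is constant on punctured
neighbourhoods: `∃ c, ∀ z₀, ∀ᶠ z in 𝓝[≠] z₀, E z = c`.

Mathlib only.  Prefix `mza_th_`, namespace `Fermat.Agent.MZ`.
-/
import Mathlib

set_option autoImplicit false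

open Complex Filter Topology

namespace Fermat.Agent.MZ

/-- the regularisation: the limit of `E` along punctured neighbourhoods -/
noncomputable def mza_th_reg (E : ℂ → ℂ) (z0 : ℂ) : ℂ := limUnder (𝓝[≠] z0) E

theorem mza_th_tendsto_of_eventuallyEq {E G : ℂ → ℂ} {z0 : ℂ} (hG : ContinuousAt G z0)
    (h : ∀ᶠ z in 𝓝[≠] z0, E z = G z) : Tendsto E (𝓝[≠] z0) (𝓝 (G z0)) := by
  have h1 : Tendsto G (𝓝[≠] z0) (𝓝 (G z0)) := hG.tendsto.mono_left nhdsWithin_le_nhds
  exact h1.congr' (h.mono fun z hz => hz.symm)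

theorem mza_th_reg_eq {E G : ℂ → ℂ} {z0 : ℂ} (hG : ContinuousAt G z0)
    (h : ∀ᶠ z in 𝓝[≠] z0, E z = G z) : mza_th_reg E z0 = G z0 :=
  (mza_th_tendsto_of_eventuallyEq hG h).limUnder_eq

/-- near `z₀` the regularisation coincides with the local analytic model -/
theorem mza_th_reg_eventuallyEq {E G : ℂ → ℂ} {z0 : ℂ} (hG : AnalyticAt ℂ G z0)
    (h : ∀ᶠ z in 𝓝[≠] z0, E z = G z) : ∀ᶠ z in 𝓝 z0, mza_th_reg E z = G z := by
  have h1 : ∀ᶠ z in 𝓝 z0, z ≠ z0 → E z = G z := eventually_nhdsWithin_iff.mp h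
  have h2 : ∀ᶠ z in 𝓝 z0, ∀ᶠ w in 𝓝 z, w ≠ z0 → E w = G w := eventually_eventually_nhds.mpr h1
  have h3 : ∀ᶠ z in 𝓝 z0, AnalyticAt ℂ G z := hG.eventually_analyticAt
  filter_upwards [h2, h3] with z hz hGz
  by_cases hzz : z = z0
  · subst hzz
    exact mza_th_reg_eq hG.continuousAt h
  · apply mza_th_reg_eq hGz.continuousAt
    have h4 : ∀ᶠ w in 𝓝 z, w ≠ z0 := (continuousAt_id.eventually_ne hzz)
    have h5 : ∀ᶠ w in 𝓝 z, E w = G w := by
      filter_upwards [hz, h4] with w hw hw0 using hw hw0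
    exact h5.filter_mono nhdsWithin_le_nhds

theorem mza_th_liouville (L : PeriodPair) (E : ℂ → ℂ)
    (hper : ∀ z l : ℂ, l ∈ L.lattice → E (z + l) = E z)
    (hloc : ∀ z0 : ℂ, ∃ G : ℂ → ℂ, AnalyticAt ℂ G z0 ∧ ∀ᶠ z in 𝓝[≠] z0, E z = G z) :
    ∃ c : ℂ, ∀ z0 : ℂ, ∀ᶠ z in 𝓝[≠] z0, E z = c := by
  set F := mza_th_reg E with hF
  have hFan : ∀ z0, AnalyticAt ℂ F z0 := by
    intro z0
    obtain ⟨G, hG, hEG⟩ := hloc z0
    exact hG.congr ((mza_th_reg_eventuallyEq hG hEG).mono fun z hz => hz.symm)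
  have hFd : Differentiable ℂ F := fun z => (hFan z).differentiableAt
  have hFper : ∀ z l : ℂ, l ∈ L.lattice → F (z + l) = F z := by
    intro z0 l hl
    obtain ⟨G, hG, hEG⟩ := hloc z0
    have h1 : Tendsto E (𝓝[≠] z0) (𝓝 (G z0)) := mza_th_tendsto_of_eventuallyEq hG.continuousAt hEG
    have h2 : Tendsto (fun w : ℂ => w - l) (𝓝[≠] (z0 + l)) (𝓝[≠] z0) := by
      apply tendsto_nhdsWithin_of_tendsto_nhds_of_eventually_within
      · have : Tendsto (fun w : ℂ => w - l) (𝓝 (z0 + l)) (𝓝 (z0 + l - l)) :=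
          (continuous_id.sub continuous_const).tendsto _
        rw [add_sub_cancel_right] at this
        exact this.mono_left nhdsWithin_le_nhds
      · filter_upwards [self_mem_nhdsWithin] with w hw
        intro h
        apply hw
        rw [Set.mem_singleton_iff] at h ⊢
        rw [← h, sub_add_cancel]
    have h3 : Tendsto (fun w : ℂ => E (w - l)) (𝓝[≠] (z0 + l)) (𝓝 (G z0)) := h1.comp h2
    have h4 : (fun w : ℂ => E (w - l)) = E := by
      funext w
      have := hper (w - l) l hl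
      rw [sub_add_cancel] at this
      exact this.symm
    rw [h4] at h3
    have h5 : F (z0 + l) = G z0 := h3.limUnder_eq
    rw [h5, hF, mza_th_reg_eq hG.continuousAt hEG]
  have hconst : ∀ z, F z = F 0 := fun z =>
    hFd.apply_eq_apply_of_bounded
      (IsZLattice.isCompact_range_of_periodic L.lattice F hFd.continuous hFper).isBounded z 0
  refine ⟨F 0, fun z0 => ?_⟩
  obtain ⟨G, hG, hEG⟩ := hloc z0
  have h1 := (mza_th_reg_eventuallyEq hG hEG).filter_mono (nhdsWithin_le_nhds (s := {z0}ᶜ))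
  filter_upwards [hEG, h1] with z hz1 hz2
  rw [hz1, ← hz2]
  exact hconst z

end Fermat.Agent.MZ
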