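/-
MAZUR / [MZ-A] / [A-THETA] (T2) (helper25): the sigma-product formula for `℘'`,

  `℘'[L_τ] z * θ(z)^4 = (2πi)^3 * P^6 * e(z) * θ(2z)`          (`mza_th_sigma`)

with `θ = mza_th_theta (e τ)`, `P = mza_th_A (e τ) 1 = ∏ (1 - q^(n+1))`, `e z = exp(2πiz)`.

Proof: `E := ℘' θ⁴ / (e θ(2·))` is periodic under `ℤ + ℤτ`, analytic off the points `2z ∈ L`, and has
removable singularities there (at lattice points the orders are `-3 + 4 - 1 = 0`, at the proper half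
periods `℘'` vanishes and `θ(2z)` has a simple zero); hence it is constant by Liouville
(`mza_th_liouville`), and the constant is read off at `z = 0`.

Mathlib + `MZ/A/Defs`, `Theta/Basic`, `Theta/Liouville`.  Prefix `mza_th_`.
-/
import Mathlib
import Fermat.Agent.MZ.A.Defs
import Fermat.Agent.MZ.A.Theta.Basic
import Fermat.Agent.MZ.A.Theta.Liouville

set_option autoImplicit false

open Complex Filter Topology
open UpperHalfPlane hiding I
open scoped Real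

namespace Fermat.Agent.MZ

/-! ### generalities -/

theorem mza_th_analyticAt_dslope {f : ℂ → ℂ} {z0 : ℂ} (hf : AnalyticAt ℂ f z0) :
    AnalyticAt ℂ (dslope f z0) z0 := by
  obtain ⟨p, hp⟩ := hf
  exact ⟨_, hp.has_fpower_series_dslope_fslope⟩

theorem mza_th_dslope_mul {f : ℂ → ℂ} {z0 : ℂ} (hf : f z0 = 0) (z : ℂ) :
    f z = (z - z0) * dslope f z0 z := by
  have := sub_smul_dslope f z0 z
  rw [hf, sub_zero, smul_eq_mul] at this
  exact this.symm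

theorem mza_th_tendsto_sub (b l : ℂ) :
    Tendsto (fun w : ℂ => w - l) (𝓝[≠] (b + l)) (𝓝[≠] b) := by
  apply tendsto_nhdsWithin_of_tendsto_nhds_of_eventually_within
  · have : Tendsto (fun w : ℂ => w - l) (𝓝 (b + l)) (𝓝 (b + l - l)) :=
      (continuous_id.sub continuous_const).tendsto _
    rw [add_sub_cancel_right] at this
    exact this.mono_left nhdsWithin_le_nhds
  · filter_upwards [self_mem_nhdsWithin] with w hw
    intro h
    apply hw
    rw [Set.mem_singleton_iff] at h ⊢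
    rw [← h, sub_add_cancel]

/-- transport of a local analytic model along a period -/
theorem mza_th_loc_translate {E : ℂ → ℂ} {b l : ℂ} (hper : ∀ z, E (z + l) = E z)
    (h : ∃ G : ℂ → ℂ, AnalyticAt ℂ G b ∧ ∀ᶠ z in 𝓝[≠] b, E z = G z) :
    ∃ G : ℂ → ℂ, AnalyticAt ℂ G (b + l) ∧ ∀ᶠ z in 𝓝[≠] (b + l), E z = G z := by
  obtain ⟨G, hG, hEG⟩ := h
  refine ⟨fun z => G (z - l), ?_, ?_⟩
  · have h1 : AnalyticAt ℂ (fun z : ℂ => z - l) (b + l) := analyticAt_id.sub analyticAt_const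
    have h2 : AnalyticAt ℂ G ((fun z : ℂ => z - l) (b + l)) := by
      show AnalyticAt ℂ G (b + l - l)
      rwa [add_sub_cancel_right]
    exact AnalyticAt.comp (g := G) (f := fun z : ℂ => z - l) h2 h1
  · have h1 := (mza_th_tendsto_sub b l).eventually hEG
    filter_upwards [h1] with z hz
    rw [← hz]
    have := hper (z - l)
    rw [sub_add_cancel] at this
    exact this

theorem mza_th_periodic_nat {E : ℂ → ℂ} {a : ℂ} (h : ∀ z, E (z + a) = E z) (m : ℕ) (z : ℂ) :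
    E (z + m * a) = E z := by
  induction m generalizing z with
  | zero => simp
  | succ k ih =>
    have : z + ((k + 1 : ℕ) : ℂ) * a = (z + k * a) + a := by push_cast; ring
    rw [this, h, ih]

theorem mza_th_periodic_int {E : ℂ → ℂ} {a : ℂ} (h : ∀ z, E (z + a) = E z) (m : ℤ) (z : ℂ) :
    E (z + m * a) = E z := by
  obtain ⟨k, rfl | rfl⟩ := m.eq_nat_or_neg
  · simpa using mza_th_periodic_nat h k z
  · have h1 := mza_th_periodic_nat h k (z + ((-(k : ℤ) : ℤ) : ℂ) * a)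
    have h2 : z + ((-(k : ℤ) : ℤ) : ℂ) * a + (k : ℂ) * a = z := by push_cast; ring
    rw [h2] at h1
    exact h1.symm

/-! ### the quotient `E` -/

/-- the quotient whose constancy is the product formula -/
noncomputable def mza_th_E (τ : ℍ) (z : ℂ) : ℂ :=
  (mza_Ltau τ).derivWeierstrassP z * mza_th_theta (mza_th_e τ) z ^ 4 /
    (mza_th_e z * mza_th_theta (mza_th_e τ) (2 * z))

theorem mza_th_im_pos (τ : ℍ) : 0 < (τ : ℂ).im := τ.im_pos

theorem mza_th_norm_q_lt_one (τ : ℍ) : ‖mza_th_e τ‖ < 1 := mza_th_norm_e_lt_one τ.im_pos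

theorem mza_th_theta_eq_zero_iff_mem (τ : ℍ) {z : ℂ} :
    mza_th_theta (mza_th_e τ) z = 0 ↔ z ∈ (mza_Ltau τ).lattice := by
  rw [mza_th_theta_eq_zero_iff τ.im_pos, mza_mem_Ltau]
  constructor
  · rintro ⟨m, n, h⟩
    exact ⟨m, n, h.symm⟩
  · rintro ⟨m, n, h⟩
    exact ⟨m, n, h.symm⟩

theorem mza_th_one_mem (τ : ℍ) : (1 : ℂ) ∈ (mza_Ltau τ).lattice := (mza_Ltau τ).ω₁_mem_lattice

theorem mza_th_tau_mem (τ : ℍ) : (τ : ℂ) ∈ (mza_Ltau τ).lattice := (mza_Ltau τ).ω₂_mem_lattice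

theorem mza_th_dP_add_mem (τ : ℍ) (z : ℂ) {l : ℂ} (hl : l ∈ (mza_Ltau τ).lattice) :
    (mza_Ltau τ).derivWeierstrassP (z + l) = (mza_Ltau τ).derivWeierstrassP z :=
  (mza_Ltau τ).derivWeierstrassP_add_coe z ⟨l, hl⟩

theorem mza_th_E_add_one (τ : ℍ) (z : ℂ) : mza_th_E τ (z + 1) = mza_th_E τ z := by
  have h1 : mza_th_e (z + 1) = mza_th_e z := by rw [mza_th_e_add, mza_th_e_one, mul_one]
  have h2 : (2 : ℂ) * (z + 1) = 2 * z + 1 + 1 := by ring
  rw [mza_th_E, mza_th_E, mza_th_dP_add_mem τ z (mza_th_one_mem τ), mza_th_theta_add_one, h1, h2,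
    mza_th_theta_add_one, mza_th_theta_add_one]

theorem mza_th_E_add_tau (τ : ℍ) (z : ℂ) : mza_th_E τ (z + τ) = mza_th_E τ z := by
  have hτ := τ.im_pos
  have h1 : mza_th_e (z + τ) = mza_th_e τ * mza_th_e z := by rw [mza_th_e_add, mul_comm]
  have h2 : (2 : ℂ) * (z + τ) = (2 * z + τ) + τ := by ring
  have h3 : mza_th_theta (mza_th_e τ) (2 * (z + τ))
      = mza_th_e (-(2 * z + τ)) * mza_th_e (-(2 * z)) * mza_th_theta (mza_th_e τ) (2 * z) := by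
    rw [h2, mza_th_theta_add_tau hτ, mza_th_theta_add_tau hτ]
    ring
  have h4 : mza_th_e (-(2 * z + τ)) * mza_th_e (-(2 * z)) * mza_th_e τ = mza_th_e (-z) ^ 4 := by
    rw [← mza_th_e_add, ← mza_th_e_add]
    have : (4 : ℂ) = ((4 : ℕ) : ℂ) := by norm_num
    rw [← mza_th_e_natCast_mul]
    congr 1
    push_cast
    ring
  have h5 : mza_th_e (-z) ^ 4 ≠ 0 := pow_ne_zero 4 (mza_th_e_ne_zero _)
  rw [mza_th_E, mza_th_E, mza_th_dP_add_mem τ z (mza_th_tau_mem τ), mza_th_theta_add_tau hτ, h1, h3]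
  have h6 : mza_th_e τ * mza_th_e z *
      (mza_th_e (-(2 * z + τ)) * mza_th_e (-(2 * z)) * mza_th_theta (mza_th_e τ) (2 * z))
      = (mza_th_e z * mza_th_theta (mza_th_e τ) (2 * z)) * mza_th_e (-z) ^ 4 := by
    rw [← h4]; ring
  have h7 : (mza_Ltau τ).derivWeierstrassP z * (-mza_th_e (-z) * mza_th_theta (mza_th_e τ) z) ^ 4
      = ((mza_Ltau τ).derivWeierstrassP z * mza_th_theta (mza_th_e τ) z ^ 4) *
        mza_th_e (-z) ^ 4 := by ring
  rw [h6, h7, mul_div_mul_right _ _ h5]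

theorem mza_th_E_add_mem (τ : ℍ) (z l : ℂ) (hl : l ∈ (mza_Ltau τ).lattice) :
    mza_th_E τ (z + l) = mza_th_E τ z := by
  obtain ⟨m, n, rfl⟩ := mza_mem_Ltau.mp hl
  have h1 := mza_th_periodic_int (mza_th_E_add_one τ) m z
  have h2 := mza_th_periodic_int (mza_th_E_add_tau τ) n (z + m * 1)
  rw [mul_one] at h1 h2
  rw [← add_assoc, h2, h1]

/-! ### local analysis -/

theorem mza_th_theta_analyticAt (τ : ℍ) (z : ℂ) :
    AnalyticAt ℂ (mza_th_theta (mza_th_e τ)) z :=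
  (mza_th_theta_differentiable (mza_th_norm_q_lt_one τ)).analyticAt z

theorem mza_th_e_analyticAt (z : ℂ) : AnalyticAt ℂ mza_th_e z :=
  mza_th_e_differentiable.analyticAt z

theorem mza_th_not_mem_of_two_mul (τ : ℍ) {z0 : ℂ} (h : 2 * z0 ∉ (mza_Ltau τ).lattice) :
    z0 ∉ (mza_Ltau τ).lattice := by
  intro h0
  apply h
  rw [two_mul]
  exact (mza_Ltau τ).lattice.add_mem h0 h0

/-- away from the points with `2z ∈ L`, `E` is analytic -/
theorem mza_th_E_analyticAt (τ : ℍ) {z0 : ℂ} (h : 2 * z0 ∉ (mza_Ltau τ).lattice) :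
    AnalyticAt ℂ (mza_th_E τ) z0 := by
  have hz0 := mza_th_not_mem_of_two_mul τ h
  have h1 : AnalyticAt ℂ (mza_Ltau τ).derivWeierstrassP z0 :=
    (mza_Ltau τ).analyticOnNhd_derivWeierstrassP z0 hz0
  have h2 := mza_th_theta_analyticAt τ z0
  have h3 := mza_th_e_analyticAt z0
  have h4 : AnalyticAt ℂ (fun z : ℂ => mza_th_theta (mza_th_e τ) (2 * z)) z0 := by
    have hd : Differentiable ℂ (fun z : ℂ => mza_th_theta (mza_th_e τ) (2 * z)) :=
      (mza_th_theta_differentiable (mza_th_norm_q_lt_one τ)).comp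
        ((differentiable_const _).mul differentiable_id)
    exact hd.analyticAt z0
  have h5 : mza_th_e z0 * mza_th_theta (mza_th_e τ) (2 * z0) ≠ 0 := by
    refine mul_ne_zero (mza_th_e_ne_zero _) ?_
    rw [Ne, mza_th_theta_eq_zero_iff_mem]
    exact h
  unfold mza_th_E
  exact (h1.mul (h2.pow 4)).div (h3.mul h4) h5

/-- the regular factor `g` of `θ` at `0`: `θ z = z * g z` -/
noncomputable def mza_th_g (τ : ℍ) : ℂ → ℂ := dslope (mza_th_theta (mza_th_e τ)) 0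

theorem mza_th_theta_eq_mul_g (τ : ℍ) (z : ℂ) :
    mza_th_theta (mza_th_e τ) z = z * mza_th_g τ z := by
  have := mza_th_dslope_mul (f := mza_th_theta (mza_th_e τ)) (z0 := 0) (mza_th_theta_zero _) z
  rw [sub_zero] at this
  exact this

theorem mza_th_g_analyticAt (τ : ℍ) : AnalyticAt ℂ (mza_th_g τ) 0 :=
  mza_th_analyticAt_dslope (mza_th_theta_analyticAt τ 0)

theorem mza_th_g_zero (τ : ℍ) :
    mza_th_g τ 0 = -(2 * π * I) * mza_th_A (mza_th_e τ) 1 ^ 2 := by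
  rw [mza_th_g, dslope_same]
  exact (mza_th_theta_hasDerivAt_zero (mza_th_norm_q_lt_one τ)).deriv

theorem mza_th_g_zero_ne_zero (τ : ℍ) : mza_th_g τ 0 ≠ 0 := by
  rw [mza_th_g_zero]
  refine mul_ne_zero (neg_ne_zero.mpr Complex.two_pi_I_ne_zero) ?_
  exact pow_ne_zero 2 (mza_th_A_one_ne_zero (mza_th_norm_q_lt_one τ))

/-- the local model of `E` at `0` -/
noncomputable def mza_th_G0 (τ : ℍ) (z : ℂ) : ℂ :=
  (z ^ 3 * (mza_Ltau τ).derivWeierstrassPExcept 0 z - 2) * mza_th_g τ z ^ 4 /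
    (2 * mza_th_e z * mza_th_g τ (2 * z))

theorem mza_th_dP_eq (τ : ℍ) (z : ℂ) :
    (mza_Ltau τ).derivWeierstrassP z
      = (mza_Ltau τ).derivWeierstrassPExcept 0 z - 2 / z ^ 3 := by
  have h := (mza_Ltau τ).derivWeierstrassPExcept_def (0 : (mza_Ltau τ).lattice) z
  simp only [ZeroMemClass.coe_zero, sub_zero] at h
  rw [h]
  ring

theorem mza_th_E_eq_G0 (τ : ℍ) {z : ℂ} (hz : z ≠ 0) : mza_th_E τ z = mza_th_G0 τ z := by
  have h1 : (mza_Ltau τ).derivWeierstrassP z * mza_th_theta (mza_th_e τ) z ^ 4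
      = z * ((z ^ 3 * (mza_Ltau τ).derivWeierstrassPExcept 0 z - 2) * mza_th_g τ z ^ 4) := by
    rw [mza_th_dP_eq, mza_th_theta_eq_mul_g]
    field_simp
  have h2 : mza_th_e z * mza_th_theta (mza_th_e τ) (2 * z)
      = z * (2 * mza_th_e z * mza_th_g τ (2 * z)) := by
    rw [mza_th_theta_eq_mul_g]
    ring
  rw [mza_th_E, mza_th_G0, h1, h2, mul_div_mul_left _ _ hz]

theorem mza_th_G0_analyticAt (τ : ℍ) : AnalyticAt ℂ (mza_th_G0 τ) 0 := by
  have h1 : AnalyticAt ℂ ((mza_Ltau τ).derivWeierstrassPExcept 0) 0 :=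
    (mza_Ltau τ).analyticAt_derivWeierstrassPExcept 0
  have h2 := mza_th_g_analyticAt τ
  have h3 : AnalyticAt ℂ (fun z : ℂ => mza_th_g τ (2 * z)) 0 := by
    have hm : AnalyticAt ℂ (fun z : ℂ => 2 * z) 0 := analyticAt_const.mul analyticAt_id
    have h2' : AnalyticAt ℂ (mza_th_g τ) ((fun z : ℂ => 2 * z) 0) := by
      show AnalyticAt ℂ (mza_th_g τ) (2 * 0)
      rw [mul_zero]
      exact h2
    exact AnalyticAt.comp (g := mza_th_g τ) (f := fun z : ℂ => 2 * z) h2' hm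
  have h4 : (2 : ℂ) * mza_th_e 0 * mza_th_g τ (2 * 0) ≠ 0 := by
    rw [mul_zero, mza_th_e_zero, mul_one]
    exact mul_ne_zero two_ne_zero (mza_th_g_zero_ne_zero τ)
  unfold mza_th_G0
  exact ((((analyticAt_id.pow 3).mul h1).sub analyticAt_const).mul (h2.pow 4)).div
    ((analyticAt_const.mul (mza_th_e_analyticAt 0)).mul h3) h4

theorem mza_th_G0_zero (τ : ℍ) : mza_th_G0 τ 0 = -(mza_th_g τ 0) ^ 3 := by
  have h := mza_th_g_zero_ne_zero τ
  rw [mza_th_G0, mul_zero, mza_th_e_zero]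
  field_simp
  ring

theorem mza_th_loc_zero (τ : ℍ) :
    ∃ G : ℂ → ℂ, AnalyticAt ℂ G 0 ∧ ∀ᶠ z in 𝓝[≠] (0 : ℂ), mza_th_E τ z = G z :=
  ⟨mza_th_G0 τ, mza_th_G0_analyticAt τ, by
    filter_upwards [self_mem_nhdsWithin] with z hz using mza_th_E_eq_G0 τ hz⟩

/-! ### the proper half periods -/

theorem mza_th_dP_half_eq_zero (τ : ℍ) {ω : ℂ} (hω : ω ∈ (mza_Ltau τ).lattice) :
    (mza_Ltau τ).derivWeierstrassP (ω / 2) = 0 := by
  have h1 : (mza_Ltau τ).derivWeierstrassP (ω / 2 - ω) = (mza_Ltau τ).derivWeierstrassP (ω / 2) :=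
    (mza_Ltau τ).derivWeierstrassP_sub_coe (ω / 2) ⟨ω, hω⟩
  have h2 : ω / 2 - ω = -(ω / 2) := by ring
  rw [h2, (mza_Ltau τ).derivWeierstrassP_neg] at h1
  have h3 : (2 : ℂ) * (mza_Ltau τ).derivWeierstrassP (ω / 2) = 0 := by linear_combination -h1
  rcases mul_eq_zero.mp h3 with h | h
  · exact absurd h two_ne_zero
  · exact h

/-- the local model of `E` at a proper half period `ω / 2` -/
noncomputable def mza_th_Gh (τ : ℍ) (ω : ℂ) (c : ℂ → ℂ) (z : ℂ) : ℂ :=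
  dslope (mza_Ltau τ).derivWeierstrassP (ω / 2) z * mza_th_theta (mza_th_e τ) z ^ 4 /
    (mza_th_e z * (c (2 * z - ω) * (2 * mza_th_g τ (2 * z - ω))))

theorem mza_th_E_eq_Gh (τ : ℍ) {ω : ℂ} (hω : ω ∈ (mza_Ltau τ).lattice) {c : ℂ → ℂ}
    (hθ : ∀ u, mza_th_theta (mza_th_e τ) (ω + u) = c u * mza_th_theta (mza_th_e τ) u)
    {z : ℂ} (hz : z ≠ ω / 2) : mza_th_E τ z = mza_th_Gh τ ω c z := by
  have hz' : z - ω / 2 ≠ 0 := sub_ne_zero.mpr hz
  have h1 : (mza_Ltau τ).derivWeierstrassP z * mza_th_theta (mza_th_e τ) z ^ 4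
      = (z - ω / 2) * (dslope (mza_Ltau τ).derivWeierstrassP (ω / 2) z *
          mza_th_theta (mza_th_e τ) z ^ 4) := by
    rw [mza_th_dslope_mul (f := (mza_Ltau τ).derivWeierstrassP) (z0 := ω / 2)
      (mza_th_dP_half_eq_zero τ hω) z]
    ring
  have h2 : mza_th_e z * mza_th_theta (mza_th_e τ) (2 * z)
      = (z - ω / 2) * (mza_th_e z * (c (2 * z - ω) * (2 * mza_th_g τ (2 * z - ω)))) := by
    have h3 : (2 : ℂ) * z = ω + (2 * z - ω) := by ring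
    rw [h3, hθ, mza_th_theta_eq_mul_g]
    ring_nf
  rw [mza_th_E, mza_th_Gh, h1, h2, mul_div_mul_left _ _ hz']

theorem mza_th_Gh_analyticAt (τ : ℍ) {ω : ℂ} (hω2 : ω / 2 ∉ (mza_Ltau τ).lattice) {c : ℂ → ℂ}
    (hc : AnalyticAt ℂ c 0) (hc0 : c 0 ≠ 0) : AnalyticAt ℂ (mza_th_Gh τ ω c) (ω / 2) := by
  have h1 : AnalyticAt ℂ (dslope (mza_Ltau τ).derivWeierstrassP (ω / 2)) (ω / 2) :=
    mza_th_analyticAt_dslope ((mza_Ltau τ).analyticOnNhd_derivWeierstrassP _ hω2)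
  have h2 := mza_th_theta_analyticAt τ (ω / 2)
  have h3 := mza_th_e_analyticAt (ω / 2)
  have hm : AnalyticAt ℂ (fun z : ℂ => 2 * z - ω) (ω / 2) :=
    (analyticAt_const.mul analyticAt_id).sub analyticAt_const
  have h0 : (fun z : ℂ => 2 * z - ω) (ω / 2) = 0 := by
    show 2 * (ω / 2) - ω = 0
    ring
  have h4 : AnalyticAt ℂ (fun z : ℂ => c (2 * z - ω)) (ω / 2) := by
    have hc' : AnalyticAt ℂ c ((fun z : ℂ => 2 * z - ω) (ω / 2)) := by rw [h0]; exact hc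
    exact AnalyticAt.comp (g := c) (f := fun z : ℂ => 2 * z - ω) hc' hm
  have h5 : AnalyticAt ℂ (fun z : ℂ => mza_th_g τ (2 * z - ω)) (ω / 2) := by
    have hg' : AnalyticAt ℂ (mza_th_g τ) ((fun z : ℂ => 2 * z - ω) (ω / 2)) := by
      rw [h0]; exact mza_th_g_analyticAt τ
    exact AnalyticAt.comp (g := mza_th_g τ) (f := fun z : ℂ => 2 * z - ω) hg' hm
  have h6 : mza_th_e (ω / 2) * (c (2 * (ω / 2) - ω) * (2 * mza_th_g τ (2 * (ω / 2) - ω))) ≠ 0 := by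
    have : (2 : ℂ) * (ω / 2) - ω = 0 := by ring
    rw [this]
    exact mul_ne_zero (mza_th_e_ne_zero _)
      (mul_ne_zero hc0 (mul_ne_zero two_ne_zero (mza_th_g_zero_ne_zero τ)))
  unfold mza_th_Gh
  exact (h1.mul (h2.pow 4)).div (h3.mul (h4.mul (analyticAt_const.mul h5))) h6

theorem mza_th_loc_half (τ : ℍ) {ω : ℂ} (hω : ω ∈ (mza_Ltau τ).lattice)
    (hω2 : ω / 2 ∉ (mza_Ltau τ).lattice) {c : ℂ → ℂ} (hc : AnalyticAt ℂ c 0) (hc0 : c 0 ≠ 0)
    (hθ : ∀ u, mza_th_theta (mza_th_e τ) (ω + u) = c u * mza_th_theta (mza_th_e τ) u) :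
    ∃ G : ℂ → ℂ, AnalyticAt ℂ G (ω / 2) ∧ ∀ᶠ z in 𝓝[≠] (ω / 2), mza_th_E τ z = G z :=
  ⟨mza_th_Gh τ ω c, mza_th_Gh_analyticAt τ hω2 hc hc0, by
    filter_upwards [self_mem_nhdsWithin] with z hz using mza_th_E_eq_Gh τ hω hθ hz⟩

/-- the three proper half periods -/
theorem mza_th_loc_half_one (τ : ℍ) :
    ∃ G : ℂ → ℂ, AnalyticAt ℂ G ((1 : ℂ) / 2) ∧ ∀ᶠ z in 𝓝[≠] ((1 : ℂ) / 2), mza_th_E τ z = G z := by
  refine mza_th_loc_half τ (mza_th_one_mem τ) (mza_Ltau τ).ω₁_div_two_notMem_lattice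
    (c := fun _ => 1) analyticAt_const one_ne_zero ?_
  intro u
  rw [add_comm, mza_th_theta_add_one, one_mul]

theorem mza_th_loc_half_tau (τ : ℍ) :
    ∃ G : ℂ → ℂ, AnalyticAt ℂ G ((τ : ℂ) / 2) ∧ ∀ᶠ z in 𝓝[≠] ((τ : ℂ) / 2), mza_th_E τ z = G z := by
  refine mza_th_loc_half τ (mza_th_tau_mem τ) (mza_Ltau τ).ω₂_div_two_notMem_lattice
    (c := fun u => -mza_th_e (-u)) ?_ ?_ ?_
  · exact ((mza_th_e_differentiable.comp differentiable_neg).neg).analyticAt 0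
  · simp [mza_th_e_zero]
  · intro u
    rw [add_comm, mza_th_theta_add_tau τ.im_pos]

theorem mza_th_half_sum_notMem (τ : ℍ) : ((1 : ℂ) + τ) / 2 ∉ (mza_Ltau τ).lattice := by
  have h := ((mza_Ltau τ).mul_ω₁_add_mul_ω₂_mem_lattice (α := 1 / 2) (β := 1 / 2)).not.mpr
    (by norm_num)
  intro h'
  apply h
  have : ((1 / 2 : ℚ) : ℂ) * (mza_Ltau τ).ω₁ + ((1 / 2 : ℚ) : ℂ) * (mza_Ltau τ).ω₂
      = ((1 : ℂ) + τ) / 2 := by
    simp only [mza_Ltau_ω₁, mza_Ltau_ω₂]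
    push_cast
    ring
  rw [this]
  exact h'

theorem mza_th_loc_half_sum (τ : ℍ) :
    ∃ G : ℂ → ℂ, AnalyticAt ℂ G (((1 : ℂ) + τ) / 2) ∧
      ∀ᶠ z in 𝓝[≠] (((1 : ℂ) + τ) / 2), mza_th_E τ z = G z := by
  refine mza_th_loc_half τ ((mza_Ltau τ).lattice.add_mem (mza_th_one_mem τ) (mza_th_tau_mem τ))
    (mza_th_half_sum_notMem τ) (c := fun u => -mza_th_e (-u)) ?_ ?_ ?_
  · exact ((mza_th_e_differentiable.comp differentiable_neg).neg).analyticAt 0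
  · simp [mza_th_e_zero]
  · intro u
    have : (1 : ℂ) + τ + u = (u + τ) + 1 := by ring
    rw [this, mza_th_theta_add_one, mza_th_theta_add_tau τ.im_pos]

/-! ### all points, and the product formula -/

theorem mza_th_loc_all (τ : ℍ) (z0 : ℂ) :
    ∃ G : ℂ → ℂ, AnalyticAt ℂ G z0 ∧ ∀ᶠ z in 𝓝[≠] z0, mza_th_E τ z = G z := by
  by_cases h : 2 * z0 ∈ (mza_Ltau τ).lattice
  · obtain ⟨m, n, hmn⟩ := mza_mem_Ltau.mp h
    obtain ⟨m', a, ha, rfl⟩ : ∃ m' a : ℤ, (a = 0 ∨ a = 1) ∧ m = 2 * m' + a :=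
      ⟨m / 2, m % 2, by omega, by omega⟩
    obtain ⟨n', b, hb, rfl⟩ : ∃ n' b : ℤ, (b = 0 ∨ b = 1) ∧ n = 2 * n' + b :=
      ⟨n / 2, n % 2, by omega, by omega⟩
    have hz0 : z0 = ((a : ℂ) + b * τ) / 2 + ((m' : ℂ) + n' * τ) := by
      push_cast at hmn
      linear_combination (-(1 : ℂ) / 2) * hmn
    have hl : ((m' : ℂ) + n' * τ) ∈ (mza_Ltau τ).lattice := mza_mem_Ltau.mpr ⟨m', n', rfl⟩
    rw [hz0]
    apply mza_th_loc_translate (fun z => mza_th_E_add_mem τ z _ hl)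
    rcases ha with rfl | rfl <;> rcases hb with rfl | rfl
    · have : (((0 : ℤ) : ℂ) + ((0 : ℤ) : ℂ) * τ) / 2 = 0 := by simp
      rw [this]
      exact mza_th_loc_zero τ
    · have : (((0 : ℤ) : ℂ) + ((1 : ℤ) : ℂ) * τ) / 2 = (τ : ℂ) / 2 := by simp
      rw [this]
      exact mza_th_loc_half_tau τ
    · have : (((1 : ℤ) : ℂ) + ((0 : ℤ) : ℂ) * τ) / 2 = (1 : ℂ) / 2 := by simp
      rw [this]
      exact mza_th_loc_half_one τ
    · have : (((1 : ℤ) : ℂ) + ((1 : ℤ) : ℂ) * τ) / 2 = ((1 : ℂ) + τ) / 2 := by simp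
      rw [this]
      exact mza_th_loc_half_sum τ
  · exact ⟨mza_th_E τ, mza_th_E_analyticAt τ h, Eventually.of_forall fun _ => rfl⟩

/-- `E` is constant (on punctured neighbourhoods), with the constant `(2πi)³ P⁶` -/
theorem mza_th_E_const (τ : ℍ) (z0 : ℂ) :
    ∀ᶠ z in 𝓝[≠] z0, mza_th_E τ z = (2 * π * I) ^ 3 * mza_th_A (mza_th_e τ) 1 ^ 6 := by
  obtain ⟨c, hc⟩ := mza_th_liouville (mza_Ltau τ) (mza_th_E τ)
    (fun z l hl => mza_th_E_add_mem τ z l hl) (mza_th_loc_all τ)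
  have h0 : ∀ᶠ z in 𝓝[≠] (0 : ℂ), mza_th_G0 τ z = c := by
    filter_upwards [hc 0, self_mem_nhdsWithin] with z hz hz0
    rw [← mza_th_E_eq_G0 τ hz0]
    exact hz
  have h1 : Tendsto (mza_th_G0 τ) (𝓝[≠] (0 : ℂ)) (𝓝 (mza_th_G0 τ 0)) :=
    (mza_th_G0_analyticAt τ).continuousAt.tendsto.mono_left nhdsWithin_le_nhds
  have h2 : Tendsto (mza_th_G0 τ) (𝓝[≠] (0 : ℂ)) (𝓝 c) :=
    tendsto_const_nhds.congr' (h0.mono fun z hz => hz.symm)
  have h3 : mza_th_G0 τ 0 = c := tendsto_nhds_unique h1 h2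
  have h4 : c = (2 * π * I) ^ 3 * mza_th_A (mza_th_e τ) 1 ^ 6 := by
    rw [← h3, mza_th_G0_zero, mza_th_g_zero]
    ring
  rw [← h4]
  exact hc z0

/-- **the sigma-product formula for `℘'`** -/
theorem mza_th_sigma (τ : ℍ) (z : ℂ) :
    (mza_Ltau τ).derivWeierstrassP z * mza_th_theta (mza_th_e τ) z ^ 4 =
      (2 * π * I) ^ 3 * mza_th_A (mza_th_e τ) 1 ^ 6 * mza_th_e z *
        mza_th_theta (mza_th_e τ) (2 * z) := by
  by_cases h : 2 * z ∈ (mza_Ltau τ).lattice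
  · have h1 : mza_th_theta (mza_th_e τ) (2 * z) = 0 := (mza_th_theta_eq_zero_iff_mem τ).mpr h
    rw [h1, mul_zero]
    by_cases hz : z ∈ (mza_Ltau τ).lattice
    · rw [(mza_th_theta_eq_zero_iff_mem τ).mpr hz]
      ring
    · have h2 := mza_th_dP_half_eq_zero τ h
      have h3 : (2 : ℂ) * z / 2 = z := by ring
      rw [h3] at h2
      rw [h2, zero_mul]
  · have hE := mza_th_E_analyticAt τ h
    have h1 : Tendsto (mza_th_E τ) (𝓝[≠] z) (𝓝 (mza_th_E τ z)) :=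
      hE.continuousAt.tendsto.mono_left nhdsWithin_le_nhds
    have h2 : Tendsto (mza_th_E τ) (𝓝[≠] z)
        (𝓝 ((2 * π * I) ^ 3 * mza_th_A (mza_th_e τ) 1 ^ 6)) :=
      tendsto_const_nhds.congr' ((mza_th_E_const τ z).mono fun w hw => hw.symm)
    have h3 := tendsto_nhds_unique h1 h2
    have h5 : mza_th_e z * mza_th_theta (mza_th_e τ) (2 * z) ≠ 0 := by
      refine mul_ne_zero (mza_th_e_ne_zero _) ?_
      rw [Ne, mza_th_theta_eq_zero_iff_mem]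
      exact h
    rw [mza_th_E, div_eq_iff h5] at h3
    rw [h3]
    ring

end Fermat.Agent.MZ
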