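/-
MAZUR / [MZ-A] / [A-THETA] CLOSED (helper11 + helper25): `mza_th_main`, the value of the modular unit
at the `p`-torsion:
  `(∏_{k=1}^{p-1} ℘'[L_τ](k/p))^4 * p^12 * Δ(pτ) = (2π)^(12(p-1)) * Δ(τ)^p`
for every `τ ∈ ℍ` and every odd prime `p`; equivalently (`mza_th_main_U`)
  `p^12 * (∏ ℘'[L_τ](k/p))^4 / ((2π)^12 Δ(τ))^(p-1) = Δ(τ)/Δ(pτ) = mza_Uan p τ`.
= (T2) `mza_th_sigma` (Theta/Sigma.lean, helper25) + (T3) `mza_tp_main_theta` (Theta/ProdTh.lean).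
-/
import Fermat.Agent.MZ.A.Theta.Sigma
import Fermat.Agent.MZ.A.Theta.ProdTh

set_option autoImplicit false

open Complex Finset
open UpperHalfPlane hiding I
open scoped Real

namespace Fermat.Agent.MZ

/-- **[A-THETA]**: the product of `℘'` over the `p`-torsion points `k/p`. -/
theorem mza_th_main (τ : ℍ) (p : ℕ) [NeZero p] (hp : p.Prime) (hp2 : p ≠ 2) :
    (∏ k ∈ Ico 1 p, (mza_Ltau τ).derivWeierstrassP ((k : ℂ) / p)) ^ 4 * (p : ℂ) ^ 12 *
        ModularForm.discriminant (mza_mulH p τ) =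
      (2 * π) ^ (12 * (p - 1)) * ModularForm.discriminant τ ^ p :=
  mza_tp_main_theta τ p hp hp2 (mza_th_sigma τ)

/-- the same, solved for the analytic modular unit `mza_Uan p τ = Δ(τ)/Δ(pτ)`. -/
theorem mza_th_main_U (τ : ℍ) (p : ℕ) [NeZero p] (hp : p.Prime) (hp2 : p ≠ 2) :
    (p : ℂ) ^ 12 * (∏ k ∈ Ico 1 p, (mza_Ltau τ).derivWeierstrassP ((k : ℂ) / p)) ^ 4 /
        ((2 * π) ^ 12 * ModularForm.discriminant τ) ^ (p - 1) = mza_Uan p τ := by
  have h := mza_th_main τ p hp hp2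
  have hΔ : ModularForm.discriminant τ ≠ 0 := ModularForm.discriminant_ne_zero τ
  have hΔp : ModularForm.discriminant (mza_mulH p τ) ≠ 0 := ModularForm.discriminant_ne_zero _
  have hπ : (2 * (π : ℂ)) ≠ 0 := by
    refine mul_ne_zero two_ne_zero ?_
    exact_mod_cast Real.pi_ne_zero
  obtain ⟨m, hm⟩ : ∃ m, p = m + 1 := ⟨p - 1, by have := hp.pos; omega⟩
  have hpm : p - 1 = m := by omega
  rw [hpm] at h ⊢
  unfold mza_Uan
  rw [div_eq_div_iff (pow_ne_zero _ (mul_ne_zero (pow_ne_zero _ hπ) hΔ)) hΔp]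
  have h' : (∏ k ∈ Ico 1 p, (mza_Ltau τ).derivWeierstrassP ((k : ℂ) / p)) ^ 4 * (p : ℂ) ^ 12 *
      ModularForm.discriminant (mza_mulH p τ) =
      ((2 * π) ^ 12) ^ m * (ModularForm.discriminant τ ^ m * ModularForm.discriminant τ) := by
    rw [h, ← pow_mul, hm, pow_succ]
  rw [mul_pow]
  linear_combination h'

end Fermat.Agent.MZ
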