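/-
MAZUR / [MZ-A] / [A-THETA] (T3) (helper11): THE PRODUCT OVER THE `p`-TORSION.  Prefix `mza_tp_`.

`q = exp(2πiτ)`, `e(z) = exp(2πiz)`,
`Θ(w) := (1 - w) ∏'ₙ (1 - q^(n+1) w)(1 - q^(n+1) w⁻¹)`  (`mza_tp_Th q w`; `θ(z) = Θ(e(z))`),
`P := ∏'ₙ (1 - q^(n+1))`.

Given the sigma-product formula (T2)
  `℘'[L_τ] z * θ(z)^4 = (2πi)^3 P^6 e(z) θ(2z)`
as a HYPOTHESIS, for an odd prime `p`:
  `(∏_{k=1}^{p-1} ℘'[L_τ](k/p))^4 * p^12 * Δ(pτ) = (2π)^(12(p-1)) * Δ(τ)^p`   (`mza_tp_main`).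

Sub-lemmas: `mza_tp_cyc` (`(1-x)∏_{k=1}^{p-1}(1-ζ^k x) = 1 - x^p`), `mza_tp_prod_one_sub` (`∏(1-ζ^k) = p`),
`mza_tp_prod_double` (`k ↦ 2k` permutes), `mza_tp_Theta` (`∏_k Θ(ζ^k) · P² = p · P_p²`).
-/
import Fermat.Agent.MZ.A.Defs

set_option autoImplicit false
set_option linter.style.haveILetI false
set_option linter.unusedSectionVars false

open Complex Finset
open UpperHalfPlane hiding I
open scoped Real

namespace Fermat.Agent.MZ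

local notation "𝕢" => Function.Periodic.qParam

/-! ### roots of unity -/

/-- `(1 - x) ∏_{k=1}^{p-1} (1 - ζ^k x) = 1 - x^p` -/
theorem mza_tp_cyc {p : ℕ} (hp : 0 < p) {ζ : ℂ} (hζ : IsPrimitiveRoot ζ p) (x : ℂ) :
    (1 - x) * ∏ k ∈ Ico 1 p, (1 - ζ ^ k * x) = 1 - x ^ p := by
  have h := X_pow_sub_C_eq_prod hζ hp (rfl : x ^ p = x ^ p)
  have h2 := congrArg (Polynomial.eval 1) h
  simp only [Polynomial.eval_sub, Polynomial.eval_pow, Polynomial.eval_X, Polynomial.eval_C,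
    one_pow, Polynomial.eval_prod] at h2
  rw [h2, Finset.range_eq_Ico, Finset.prod_eq_prod_Ico_succ_bot hp]
  simp

/-- `∏_{k=1}^{p-1} (1 - ζ^k) = p` -/
theorem mza_tp_prod_one_sub {p : ℕ} (hp : 0 < p) {ζ : ℂ} (hζ : IsPrimitiveRoot ζ p) :
    ∏ k ∈ Ico 1 p, (1 - ζ ^ k) = (p : ℂ) := by
  obtain ⟨m, rfl⟩ : ∃ m, p = m + 1 := ⟨p - 1, by omega⟩
  have h := hζ.prod_one_sub_pow_eq_order
  rw [Finset.prod_Ico_eq_prod_range]
  simp only [Nat.add_sub_cancel, add_comm 1]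
  rw [h]
  push_cast
  ring

/-- doubling permutes the nonzero residues mod an odd prime -/
theorem mza_tp_prod_double {p : ℕ} (hp : p.Prime) (hp2 : p ≠ 2) {ζ : ℂ} (hζ : ζ ^ p = 1)
    (g : ℂ → ℂ) : ∏ k ∈ Ico 1 p, g (ζ ^ (2 * k)) = ∏ k ∈ Ico 1 p, g (ζ ^ k) := by
  have hmod : ∀ n : ℕ, ζ ^ n = ζ ^ (n % p) := by
    intro n
    conv_lhs => rw [← Nat.div_add_mod n p, pow_add, pow_mul, hζ, one_pow, one_mul]
  have hcop : Nat.Coprime 2 p := by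
    rw [Nat.coprime_primes Nat.prime_two hp]
    exact fun h => hp2 h.symm
  have hmaps : ∀ k ∈ Ico 1 p, (2 * k) % p ∈ Ico 1 p := by
    intro k hk
    rw [Finset.mem_Ico] at hk ⊢
    refine ⟨?_, Nat.mod_lt _ hp.pos⟩
    rw [Nat.one_le_iff_ne_zero]
    intro h0
    have hdvd : p ∣ 2 * k := Nat.dvd_of_mod_eq_zero h0
    have hk' : p ∣ k := (Nat.Coprime.dvd_mul_left hcop.symm).mp hdvd
    exact absurd (Nat.le_of_dvd (by omega) hk') (by omega)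
  have hinj : Set.InjOn (fun k => (2 * k) % p) (Ico 1 p : Finset ℕ) := by
    intro a ha b hb hab
    rw [Finset.mem_coe, Finset.mem_Ico] at ha hb
    have h1 : 2 * a ≡ 2 * b [MOD p] := hab
    have h2 : a ≡ b [MOD p] := Nat.ModEq.cancel_left_of_coprime hcop.symm h1
    have h3 : a % p = b % p := h2
    rwa [Nat.mod_eq_of_lt ha.2, Nat.mod_eq_of_lt hb.2] at h3
  refine Finset.prod_nbij (fun k => (2 * k) % p) hmaps hinj ?_ (fun k _ => by rw [hmod])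
  exact Finset.surjOn_of_injOn_of_card_le _ hmaps hinj le_rfl

/-- `∏_{k=1}^{p-1} ζ^k = 1` for `p` odd -/
theorem mza_tp_prod_pow {p : ℕ} (hp : Odd p) {ζ : ℂ} (hζ : ζ ^ p = 1) :
    ∏ k ∈ Ico 1 p, ζ ^ k = 1 := by
  obtain ⟨t, rfl⟩ := hp
  rw [Finset.prod_pow_eq_pow_sum]
  have hsum : ∑ k ∈ Ico 1 (2 * t + 1), k = (2 * t + 1) * t := by
    have h1 : ∑ k ∈ range (2 * t + 1), k = ∑ k ∈ Ico 1 (2 * t + 1), k := by
      rw [Finset.range_eq_Ico, Finset.sum_eq_sum_Ico_succ_bot (by omega)]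
      simp
    rw [← h1, Finset.sum_range_id]
    have : (2 * t + 1) * (2 * t + 1 - 1) = ((2 * t + 1) * t) * 2 := by
      rw [Nat.add_sub_cancel]; ring
    rw [this, Nat.mul_div_cancel _ (by norm_num)]
  rw [hsum, pow_mul, hζ, one_pow]

/-! ### the theta product -/

/-- the theta function as a function of `w = e(z)` -/
noncomputable def mza_tp_Th (q w : ℂ) : ℂ :=
  (1 - w) * ∏' n : ℕ, ((1 - q ^ (n + 1) * w) * (1 - q ^ (n + 1) * w⁻¹))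

theorem mza_tp_multipliable {q : ℂ} (hq : ‖q‖ < 1) (a : ℂ) :
    Multipliable fun n : ℕ => 1 - q ^ (n + 1) * a := by
  have h := multipliable_one_add_of_summable (f := fun n : ℕ => -(q ^ (n + 1) * a)) (by
    simp only [norm_neg, norm_mul, norm_pow]
    exact ((summable_nat_add_iff 1).mpr
      (summable_geometric_of_lt_one (norm_nonneg _) hq)).mul_right _)
  simpa [sub_eq_add_neg] using h

theorem mza_tp_multipliable2 {q : ℂ} (hq : ‖q‖ < 1) (a b : ℂ) :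
    Multipliable fun n : ℕ => (1 - q ^ (n + 1) * a) * (1 - q ^ (n + 1) * b) :=
  (mza_tp_multipliable hq a).mul (mza_tp_multipliable hq b)

/-- the local factor: `∏_k (1 - xζ^k)(1 - xζ^{-k}) · (1-x)² = (1 - x^p)²` -/
theorem mza_tp_factor {p : ℕ} (hp : 0 < p) {ζ : ℂ} (hζ : IsPrimitiveRoot ζ p) (x : ℂ) :
    (∏ k ∈ Ico 1 p, ((1 - x * ζ ^ k) * (1 - x * (ζ ^ k)⁻¹))) * (1 - x) ^ 2 = (1 - x ^ p) ^ 2 := by
  have h1 := mza_tp_cyc hp hζ x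
  have h2 := mza_tp_cyc hp hζ.inv x
  rw [Finset.prod_mul_distrib]
  have e1 : ∏ k ∈ Ico 1 p, (1 - x * ζ ^ k) = ∏ k ∈ Ico 1 p, (1 - ζ ^ k * x) :=
    Finset.prod_congr rfl fun k _ => by rw [mul_comm]
  have e2 : ∏ k ∈ Ico 1 p, (1 - x * (ζ ^ k)⁻¹) = ∏ k ∈ Ico 1 p, (1 - ζ⁻¹ ^ k * x) :=
    Finset.prod_congr rfl fun k _ => by rw [mul_comm, inv_pow]
  rw [e1, e2]
  calc (∏ k ∈ Ico 1 p, (1 - ζ ^ k * x)) * (∏ k ∈ Ico 1 p, (1 - ζ⁻¹ ^ k * x)) * (1 - x) ^ 2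
      = ((1 - x) * ∏ k ∈ Ico 1 p, (1 - ζ ^ k * x)) *
          ((1 - x) * ∏ k ∈ Ico 1 p, (1 - ζ⁻¹ ^ k * x)) := by ring
    _ = (1 - x ^ p) ^ 2 := by rw [h1, h2]; ring

/-- **the theta product over the nontrivial `p`-th roots of unity**:
`∏_{k=1}^{p-1} Θ(ζ^k) · P² = p · P_p²`. -/
theorem mza_tp_Theta {q : ℂ} (hq : ‖q‖ < 1) {p : ℕ} (hp : 0 < p) {ζ : ℂ}
    (hζ : IsPrimitiveRoot ζ p) :
    (∏ k ∈ Ico 1 p, mza_tp_Th q (ζ ^ k)) * (∏' n : ℕ, (1 - q ^ (n + 1))) ^ 2 =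
      (p : ℂ) * (∏' n : ℕ, (1 - (q ^ p) ^ (n + 1))) ^ 2 := by
  have hqp : ‖q ^ p‖ < 1 := by
    rw [norm_pow]
    exact pow_lt_one₀ (norm_nonneg _) hq hp.ne'
  have hP : Multipliable fun n : ℕ => 1 - q ^ (n + 1) := by
    simpa using mza_tp_multipliable hq 1
  have hPp : Multipliable fun n : ℕ => 1 - (q ^ p) ^ (n + 1) := by
    simpa using mza_tp_multipliable hqp 1
  have hB : ∀ k ∈ Ico 1 p, Multipliable fun n : ℕ =>
      (1 - q ^ (n + 1) * ζ ^ k) * (1 - q ^ (n + 1) * (ζ ^ k)⁻¹) :=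
    fun k _ => mza_tp_multipliable2 hq _ _
  unfold mza_tp_Th
  rw [Finset.prod_mul_distrib, mza_tp_prod_one_sub hp hζ, ← Multipliable.tprod_finsetProd hB,
    mul_assoc, ← hP.tprod_pow 2, ← Multipliable.tprod_mul (multipliable_prod hB) (hP.pow 2),
    ← hPp.tprod_pow 2]
  congr 1
  refine tprod_congr fun n => ?_
  rw [mza_tp_factor hp hζ (q ^ (n + 1)), pow_right_comm]

/-! ### the main theorem -/

/-- `e(k/p) = ζ^k`, `ζ = e(1/p)` -/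
theorem mza_tp_exp_div (p k : ℕ) :
    cexp (2 * π * I * ((k : ℂ) / p)) = cexp (2 * π * I / p) ^ k := by
  rw [← Complex.exp_nat_mul]
  congr 1
  ring

theorem mza_tp_qParam_mul (p : ℕ) (z : ℂ) : 𝕢 1 ((p : ℂ) * z) = 𝕢 1 z ^ p := by
  unfold Function.Periodic.qParam
  rw [← Complex.exp_nat_mul]
  congr 1
  push_cast
  ring

theorem mza_tp_disc (τ : ℍ) :
    ModularForm.discriminant τ =
      𝕢 1 (τ : ℂ) * (∏' n : ℕ, (1 - 𝕢 1 (τ : ℂ) ^ (n + 1))) ^ 24 := by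
  have hq : ‖𝕢 1 (τ : ℂ)‖ < 1 := Function.Periodic.norm_qParam_lt_one one_pos τ.im_pos
  have hP : Multipliable fun n : ℕ => 1 - 𝕢 1 (τ : ℂ) ^ (n + 1) := by
    simpa using mza_tp_multipliable hq 1
  rw [ModularForm.discriminant_eq_q_prod, ← hP.tprod_pow 24]

theorem mza_tp_disc_mul (p : ℕ) [NeZero p] (τ : ℍ) :
    ModularForm.discriminant (mza_mulH p τ) =
      𝕢 1 (τ : ℂ) ^ p * (∏' n : ℕ, (1 - (𝕢 1 (τ : ℂ) ^ p) ^ (n + 1))) ^ 24 := by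
  have h := mza_tp_disc (mza_mulH p τ)
  rw [mza_coe_mulH] at h
  rw [h, mza_tp_qParam_mul]

/-- **(T3), `Θ`-form**: from the sigma-product formula (T2) for `θ(z) = Θ(e(z))` to the value of the
modular unit at the `p`-torsion. -/
theorem mza_tp_main_Th (τ : ℍ) (p : ℕ) [NeZero p] (hp : p.Prime) (hp2 : p ≠ 2)
    (hT2 : ∀ z : ℂ, (mza_Ltau τ).derivWeierstrassP z *
        mza_tp_Th (𝕢 1 τ) (cexp (2 * π * I * z)) ^ 4 =
      (2 * π * I) ^ 3 * (∏' n : ℕ, (1 - 𝕢 1 τ ^ (n + 1))) ^ 6 * cexp (2 * π * I * z) *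
        mza_tp_Th (𝕢 1 τ) (cexp (2 * π * I * (2 * z)))) :
    (∏ k ∈ Ico 1 p, (mza_Ltau τ).derivWeierstrassP ((k : ℂ) / p)) ^ 4 * (p : ℂ) ^ 12 *
        ModularForm.discriminant (mza_mulH p τ) =
      (2 * π) ^ (12 * (p - 1)) * ModularForm.discriminant τ ^ p := by
  have hq : ‖𝕢 1 (τ : ℂ)‖ < 1 := Function.Periodic.norm_qParam_lt_one one_pos τ.im_pos
  have hζ : IsPrimitiveRoot (cexp (2 * π * I / p)) p := Complex.isPrimitiveRoot_exp p hp.ne_zero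
  have hζ1 : cexp (2 * π * I / p) ^ p = 1 := hζ.pow_eq_one
  have hodd : Odd p := hp.odd_of_ne_two hp2
  set q : ℂ := 𝕢 1 (τ : ℂ) with hqdef
  set ζ : ℂ := cexp (2 * π * I / p) with hζdef
  set P : ℂ := ∏' n : ℕ, (1 - q ^ (n + 1)) with hPdef
  set Pp : ℂ := ∏' n : ℕ, (1 - (q ^ p) ^ (n + 1)) with hPpdef
  set Θ : ℂ := ∏ k ∈ Ico 1 p, mza_tp_Th q (ζ ^ k) with hΘdef
  set F : ℂ := ∏ k ∈ Ico 1 p, (mza_Ltau τ).derivWeierstrassP ((k : ℂ) / p) with hFdef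
  have hΘ : Θ * P ^ 2 = (p : ℂ) * Pp ^ 2 := mza_tp_Theta hq hp.pos hζ
  -- non-vanishing
  have hPne : P ≠ 0 := by
    have h := ModularForm.eta_tprod_ne_zero (z := (τ : ℂ)) τ.2
    exact h
  have hPpne : Pp ≠ 0 := by
    have h := ModularForm.eta_tprod_ne_zero (z := ((mza_mulH p τ : ℍ) : ℂ)) (mza_mulH p τ).2
    have e : ∀ n : ℕ, (1 : ℂ) - ModularForm.eta_q n ((mza_mulH p τ : ℍ) : ℂ) =
        1 - (q ^ p) ^ (n + 1) := by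
      intro n
      show (1 : ℂ) - (𝕢 1 ((mza_mulH p τ : ℍ) : ℂ)) ^ (n + 1) = _
      rw [mza_coe_mulH, mza_tp_qParam_mul]
    rw [tprod_congr e] at h
    exact h
  have hpne : (p : ℂ) ≠ 0 := Nat.cast_ne_zero.mpr hp.ne_zero
  have hΘne : Θ ≠ 0 := by
    intro h0
    rw [h0, zero_mul] at hΘ
    exact mul_ne_zero hpne (pow_ne_zero 2 hPpne) hΘ.symm
  -- (T2) at `k/p`
  have hk : ∀ k ∈ Ico 1 p, (mza_Ltau τ).derivWeierstrassP ((k : ℂ) / p) *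
      mza_tp_Th q (ζ ^ k) ^ 4 = (2 * π * I) ^ 3 * P ^ 6 * ζ ^ k * mza_tp_Th q (ζ ^ (2 * k)) := by
    intro k _
    have h := hT2 ((k : ℂ) / p)
    have e2 : (2 : ℂ) * ((k : ℂ) / p) = (((2 * k : ℕ) : ℂ)) / p := by push_cast; ring
    rw [e2, mza_tp_exp_div, mza_tp_exp_div] at h
    exact h
  have hprod : F * Θ ^ 4 = ((2 * π * I) ^ 3 * P ^ 6) ^ (p - 1) * Θ := by
    have h1 : ∏ k ∈ Ico 1 p, ((mza_Ltau τ).derivWeierstrassP ((k : ℂ) / p) *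
        mza_tp_Th q (ζ ^ k) ^ 4) =
        ∏ k ∈ Ico 1 p, ((2 * π * I) ^ 3 * P ^ 6 * ζ ^ k * mza_tp_Th q (ζ ^ (2 * k))) :=
      Finset.prod_congr rfl hk
    rw [Finset.prod_mul_distrib, Finset.prod_pow, Finset.prod_mul_distrib,
      Finset.prod_mul_distrib, Finset.prod_const, Nat.card_Ico,
      mza_tp_prod_pow hodd hζ1, mul_one,
      mza_tp_prod_double hp hp2 hζ1 (fun w => mza_tp_Th q w)] at h1
    exact h1
  have h3 : F * Θ ^ 3 = ((2 * π * I) ^ 3 * P ^ 6) ^ (p - 1) := by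
    apply mul_right_cancel₀ hΘne
    rw [← hprod]
    ring
  -- the two discriminants
  have hΔ : ModularForm.discriminant τ = q * P ^ 24 := mza_tp_disc τ
  have hΔp : ModularForm.discriminant (mza_mulH p τ) = q ^ p * Pp ^ 24 :=
    mza_tp_disc_mul p τ
  rw [hΔ, hΔp]
  obtain ⟨m, hm⟩ : ∃ m, p = m + 1 := ⟨p - 1, by have := hp.pos; omega⟩
  have hpm : p - 1 = m := by omega
  rw [hpm] at h3 ⊢
  have hI12 : (I : ℂ) ^ 12 = 1 := by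
    rw [show 12 = 4 * 3 by norm_num, pow_mul, I_pow_four, one_pow]
  have h12 : Θ ^ 12 * P ^ 24 = (p : ℂ) ^ 12 * Pp ^ 24 := by
    have : (Θ * P ^ 2) ^ 12 = ((p : ℂ) * Pp ^ 2) ^ 12 := by rw [hΘ]
    rw [mul_pow, mul_pow, ← pow_mul, ← pow_mul] at this
    exact this
  have h34 : F ^ 4 * Θ ^ 12 = ((2 * π) ^ 12) ^ m * (P ^ 24) ^ m := by
    have h4 : (F * Θ ^ 3) ^ 4 = (((2 * π * I) ^ 3 * P ^ 6) ^ m) ^ 4 := by rw [h3]
    have e0 : ((2 * (π : ℂ) * I) ^ 3 * P ^ 6) ^ 4 = (2 * π) ^ 12 * P ^ 24 := by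
      calc ((2 * (π : ℂ) * I) ^ 3 * P ^ 6) ^ 4 = (2 * π) ^ 12 * I ^ 12 * P ^ 24 := by ring
        _ = (2 * π) ^ 12 * P ^ 24 := by rw [hI12, mul_one]
    calc F ^ 4 * Θ ^ 12 = (F * Θ ^ 3) ^ 4 := by ring
      _ = (((2 * π * I) ^ 3 * P ^ 6) ^ m) ^ 4 := h4
      _ = (((2 * π * I) ^ 3 * P ^ 6) ^ 4) ^ m := by rw [← pow_mul, ← pow_mul, Nat.mul_comm]
      _ = ((2 * π) ^ 12) ^ m * (P ^ 24) ^ m := by rw [e0, mul_pow]
  calc F ^ 4 * (p : ℂ) ^ 12 * (q ^ p * Pp ^ 24)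
      = F ^ 4 * q ^ p * ((p : ℂ) ^ 12 * Pp ^ 24) := by ring
    _ = F ^ 4 * q ^ p * (Θ ^ 12 * P ^ 24) := by rw [h12]
    _ = (F ^ 4 * Θ ^ 12) * q ^ p * P ^ 24 := by ring
    _ = ((2 * π) ^ 12) ^ m * (P ^ 24) ^ m * q ^ p * P ^ 24 := by rw [h34]
    _ = (2 * π) ^ (12 * m) * (q * P ^ 24) ^ p := by
      rw [hm, pow_mul (2 * (π : ℂ)) 12 m, mul_pow q, pow_succ (P ^ 24) m]
      ring

/-- **(T3)**: the same for any function `θ` given by the product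
`θ(z) = (1 - e(z)) ∏'ₙ (1 - q^(n+1) e(z)) (1 - q^(n+1) e(-z))`. -/
theorem mza_tp_main (τ : ℍ) (p : ℕ) [NeZero p] (hp : p.Prime) (hp2 : p ≠ 2) (θ : ℂ → ℂ)
    (hθ : ∀ z : ℂ, θ z = (1 - cexp (2 * π * I * z)) *
      ∏' n : ℕ, ((1 - 𝕢 1 (τ : ℂ) ^ (n + 1) * cexp (2 * π * I * z)) *
        (1 - 𝕢 1 (τ : ℂ) ^ (n + 1) * cexp (2 * π * I * (-z)))))
    (hT2 : ∀ z : ℂ, (mza_Ltau τ).derivWeierstrassP z * θ z ^ 4 =
      (2 * π * I) ^ 3 * (∏' n : ℕ, (1 - 𝕢 1 (τ : ℂ) ^ (n + 1))) ^ 6 * cexp (2 * π * I * z) *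
        θ (2 * z)) :
    (∏ k ∈ Ico 1 p, (mza_Ltau τ).derivWeierstrassP ((k : ℂ) / p)) ^ 4 * (p : ℂ) ^ 12 *
        ModularForm.discriminant (mza_mulH p τ) =
      (2 * π) ^ (12 * (p - 1)) * ModularForm.discriminant τ ^ p := by
  have hθ' : ∀ z : ℂ, θ z = mza_tp_Th (𝕢 1 (τ : ℂ)) (cexp (2 * π * I * z)) := by
    intro z
    rw [hθ z, mza_tp_Th, mul_neg, Complex.exp_neg]
  refine mza_tp_main_Th τ p hp hp2 fun z => ?_
  rw [← hθ', ← hθ']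
  exact hT2 z

end Fermat.Agent.MZ
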